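import Mathlib
import Fermat.Prelude.Def_FLTPrelim_FreyPackage
import Fermat.Prelude.Def_FLTPrelim_GaloisRep
import Fermat.Prelude.Def_FLTPrelim_Ramification
import Fermat.Agent.H3.FreyReduction
import Fermat.Agent.H60.S13WP6

/-!
# S13 / WP6app: case (c) is impossible for the Frey curve

If `A` is a place of `ℚ̄` over `p = P.p` such that no nonzero `p`-torsion point of the Frey curve
has an `A`-integral `x`-coordinate, then there is no Galois-stable nonzero submodule `N` of
`E[p]` with at most `p` elements.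

Hypothesis-parametric in
* WP3 (roots of `preΨ_p` ↔ nonzero `p`-torsion points), as `hDPa`, `hDPb`;
* WP1b (an integer `e` with `p ∤ preΨ_p(e)`), as `hunit`.
-/

set_option autoImplicit false

noncomputable section

open WeierstrassCurve WeierstrassCurve.Affine WeierstrassCurve.Affine.Point Polynomial

namespace Fermat.Agent.H9

local notation "K" => AlgebraicClosure ℚ

/-- WP3 (a) for the Frey curve -/
def FreyDPa (P : FreyPackage) : Prop :=
  ∀ (x y : K) (h : (P.freyCurve⁄K).Nonsingular x y),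
    (P.p : ℤ) • (Point.some x y h : (P.freyCurve⁄K).Point) = 0 →
      ((P.freyCurve⁄K).preΨ (P.p : ℤ)).eval x = 0

/-- WP3 (b) for the Frey curve -/
def FreyDPb (P : FreyPackage) : Prop :=
  ∀ x : K, ((P.freyCurve⁄K).preΨ (P.p : ℤ)).eval x = 0 →
    ∃ (y : K) (h : (P.freyCurve⁄K).Nonsingular x y),
      (P.p : ℤ) • (Point.some x y h : (P.freyCurve⁄K).Point) = 0

/-- WP1b for the Frey curve -/
def FreyUnit (P : FreyPackage) : Prop :=
  ∃ e : ℤ, ¬ ((P.p : ℤ) ∣ (P.freyCurveInt.preΨ (P.p : ℤ)).eval e)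

section Basics

variable (P : FreyPackage)

theorem frey_not_even : ¬ Even (P.p : ℤ) := by
  rw [Int.even_coe_nat]
  exact Nat.not_even_iff_odd.mpr P.hp_odd

theorem frey_natDegree_preΨ :
    (P.freyCurveInt.preΨ (P.p : ℤ)).natDegree = (P.p ^ 2 - 1) / 2 := by
  have hpZ : (Int.cast (R := ℤ) (P.p : ℤ)) ≠ 0 := by
    rw [Int.cast_id]
    exact_mod_cast P.hp0
  rw [natDegree_preΨ (W := P.freyCurveInt) (n := (P.p : ℤ)) hpZ, if_neg (frey_not_even P)]
  simp

theorem frey_leadingCoeff_preΨ :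
    (P.freyCurveInt.preΨ (P.p : ℤ)).leadingCoeff = (P.p : ℤ) := by
  have hpZ : (Int.cast (R := ℤ) (P.p : ℤ)) ≠ 0 := by
    rw [Int.cast_id]
    exact_mod_cast P.hp0
  rw [leadingCoeff_preΨ (W := P.freyCurveInt) (n := (P.p : ℤ)) hpZ, if_neg (frey_not_even P),
    Int.cast_id]

theorem frey_baseChange_eq :
    (P.freyCurve⁄K) = P.freyCurveInt.map (algebraMap ℤ K) := by
  show P.freyCurve.map (algebraMap ℚ K) = _
  rw [← Fermat.Agent.H3.freyCurveInt_map, WeierstrassCurve.map_map]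
  congr 1

theorem frey_preΨ_map :
    (P.freyCurve⁄K).preΨ (P.p : ℤ) = (P.freyCurveInt.preΨ (P.p : ℤ)).map (algebraMap ℤ K) := by
  rw [frey_baseChange_eq, map_preΨ]

theorem frey_aeval_iff (r : K) :
    aeval r (P.freyCurveInt.preΨ (P.p : ℤ)) = 0 ↔
      ((P.freyCurve⁄K).preΨ (P.p : ℤ)).eval r = 0 := by
  rw [frey_preΨ_map, eval_map, aeval_def]

theorem frey_degree_gt : P.p < (P.p ^ 2 - 1) / 2 := by
  have h5 := P.hp5
  have h1 : 3 * P.p ≤ P.p ^ 2 - 1 := by
    have h2 : 5 * P.p ≤ P.p ^ 2 := by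
      rw [pow_two]
      exact Nat.mul_le_mul_right _ h5
    omega
  omega

end Basics

section Main

variable (P : FreyPackage)

/-- the set of `x`-coordinates of the nonzero points of `N` -/
def xSet (N : Submodule (ZMod P.p) (Submodule.torsionBy ℤ (P.freyCurve⁄K).Point P.p)) : Set K :=
  {x : K | ∃ (y : K) (h : (P.freyCurve⁄K).Nonsingular x y)
    (hmem : (Point.some x y h : (P.freyCurve⁄K).Point) ∈
      Submodule.torsionBy ℤ (P.freyCurve⁄K).Point P.p),
    (⟨Point.some x y h, hmem⟩ : Submodule.torsionBy ℤ (P.freyCurve⁄K).Point P.p) ∈ N}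

/-- `x`-coordinate with junk value `0` at infinity -/
def xCoord : (P.freyCurve⁄K).Point → K
  | .zero => 0
  | .some x _ _ => x

theorem xSet_subset_range
    (N : Submodule (ZMod P.p) (Submodule.torsionBy ℤ (P.freyCurve⁄K).Point P.p)) :
    xSet P N ⊆ Set.range (fun Q : N => xCoord P ((Q : Submodule.torsionBy ℤ
      (P.freyCurve⁄K).Point P.p) : (P.freyCurve⁄K).Point)) := by
  rintro x ⟨y, h, hmem, hN⟩
  exact ⟨⟨⟨Point.some x y h, hmem⟩, hN⟩, rfl⟩

theorem xSet_stable
    (N : Submodule (ZMod P.p) (Submodule.torsionBy ℤ (P.freyCurve⁄K).Point P.p))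
    (hN : IsGaloisStable ℚ N) (σ : K ≃ₐ[ℚ] K) (x : K) (hx : x ∈ xSet P N) :
    σ x ∈ xSet P N := by
  obtain ⟨y, h, hmem, hxN⟩ := hx
  have h1 := hN σ _ hxN
  exact ⟨σ y, _, _, h1⟩

/-- **WP6app**: case (c) is impossible. -/
theorem frey_caseC_false (hDPa : FreyDPa P) (hDPb : FreyDPb P) (hunit : FreyUnit P)
    (A : ValuationSubring K) (hA : A.LiesOverPrime P.p)
    (N : Submodule (ZMod P.p) (Submodule.torsionBy ℤ (P.freyCurve⁄K).Point P.p))
    (hN : IsGaloisStable ℚ N) (hN0 : N ≠ ⊥) (hNfin : Finite N) (hcard : Nat.card N ≤ P.p)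
    (hall : ∀ (x y : K) (h : (P.freyCurve⁄K).Nonsingular x y),
      (P.p : ℤ) • (Point.some x y h : (P.freyCurve⁄K).Point) = 0 → x ∉ A) : False := by
  classical
  set ψ := P.freyCurveInt.preΨ (P.p : ℤ) with hψ
  have hdeg : ψ.natDegree = (P.p ^ 2 - 1) / 2 := frey_natDegree_preΨ P
  have hlead : ψ.leadingCoeff = (P.p : ℤ) := frey_leadingCoeff_preΨ P
  have hgt := frey_degree_gt P
  have hd : 0 < ψ.natDegree := by rw [hdeg]; omega
  have hroots : ∀ r : K, aeval r ψ = 0 → r ∉ A := by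
    intro r hr
    obtain ⟨y, h, htor⟩ := hDPb r ((frey_aeval_iff P r).mp hr)
    exact hall r y h htor
  obtain ⟨e, he⟩ := hunit
  -- a nonzero point of `N`
  obtain ⟨Q, hQN, hQ0⟩ := (Submodule.ne_bot_iff N).mp hN0
  obtain ⟨Qp, hQmem⟩ := Q
  rcases Qp with _ | ⟨x, y, h⟩
  · exact hQ0 rfl
  have hxX : x ∈ xSet P N := ⟨y, h, hQmem, hQN⟩
  have hxroot : aeval x ψ = 0 := by
    rw [frey_aeval_iff]
    refine hDPa x y h ?_
    exact (Submodule.mem_torsionBy_iff _ _).mp hQmem
  have hfinX : (xSet P N).Finite := (Set.finite_range _).subset (xSet_subset_range P N)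
  have hle := Fermat.Agent.H60.wp6_natDegree_le_ncard_of_roots_not_mem P.p P.pp ψ hd hlead A hA
    hroots e he (xSet P N) hfinX x hxX hxroot (fun σ z hz => xSet_stable P N hN σ z hz)
  have h2 : (xSet P N).ncard ≤ Nat.card N := by
    calc (xSet P N).ncard ≤ (Set.range (fun Q : N => xCoord P ((Q : Submodule.torsionBy ℤ
          (P.freyCurve⁄K).Point P.p) : (P.freyCurve⁄K).Point))).ncard :=
          Set.ncard_le_ncard (xSet_subset_range P N) (Set.finite_range _)
      _ = Nat.card (Set.range (fun Q : N => xCoord P ((Q : Submodule.torsionBy ℤ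
          (P.freyCurve⁄K).Point P.p) : (P.freyCurve⁄K).Point))) := rfl
      _ ≤ Nat.card N := Finite.card_range_le _
  omega

end Main

end Fermat.Agent.H9
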