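import Mathlib
import Fermat.Prelude.Def_FLTPrelim_FreyPackage
import Fermat.Prelude.Def_FLTPrelim_GaloisRep
import Fermat.Prelude.Def_FLTPrelim_Ramification
import Fermat.Agent.H74.DivPolyFrey
import Fermat.Agent.H75.EDSZero
import Fermat.Agent.H9.S13.CaseC

/-!
# S13 / WP6app: case (c) is impossible for the Frey curve (final form)

`frey_caseC_false'` / `frey_caseC_false_of_ne_top` / `frey_exists_integral_torsion`:
if the mod-`p` representation of the Frey curve has a Galois-stable submodule `N ≠ ⊥, ⊤`, then for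
every place `A` of `ℚ̄` over `p` some nonzero `p`-torsion point has an `A`-integral
`x`-coordinate (i.e. `E[p] ⊄ E₁(A)`).
-/

set_option autoImplicit false

noncomputable section

open WeierstrassCurve WeierstrassCurve.Affine WeierstrassCurve.Affine.Point Polynomial

namespace Fermat.Agent.H9

local notation "Qb" => AlgebraicClosure ℚ

section DP

variable (P : FreyPackage)

theorem frey_baseChange_Δ_ne_zero : (P.freyCurve⁄Qb).Δ ≠ 0 := by
  rw [show (P.freyCurve⁄Qb).Δ = algebraMap ℚ Qb P.freyCurve.Δ from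
    WeierstrassCurve.map_Δ P.freyCurve (algebraMap ℚ Qb)]
  intro h
  exact Fermat.Agent.H74.freyCurve_Δ_ne_zero' P
    ((map_eq_zero_iff _ (algebraMap ℚ Qb).injective).mp h)

theorem frey_p_ne_two : P.p ≠ 2 := by
  have := P.hp5
  omega

theorem frey_DPa : FreyDPa P := by
  intro x y h htor
  have h2 : (2 : Qb) ≠ 0 := two_ne_zero
  have := (Fermat.Agent.H74.nsmul_eq_zero_iff_eval_preΨ (P.freyCurve⁄Qb) h2 P.pp (frey_p_ne_two P)
    (P := Point.some x y h) (Point.some_ne_zero h)).mp (by rwa [natCast_zsmul] at htor)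
  exact this

theorem frey_DPb : FreyDPb P := by
  intro x hx
  have h2 : (2 : Qb) ≠ 0 := two_ne_zero
  obtain ⟨y, hy⟩ := Fermat.Agent.H74.exists_equation_of_isAlgClosed (W := (P.freyCurve⁄Qb)) x
  have hns : (P.freyCurve⁄Qb).Nonsingular x y :=
    (Affine.equation_iff_nonsingular_of_Δ_ne_zero (frey_baseChange_Δ_ne_zero P)).mp hy
  refine ⟨y, hns, ?_⟩
  rw [natCast_zsmul]
  exact (Fermat.Agent.H74.nsmul_eq_zero_iff_eval_preΨ (P.freyCurve⁄Qb) h2 P.pp (frey_p_ne_two P)
    (P := Point.some x y hns) (Point.some_ne_zero hns)).mpr hx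

theorem frey_unit : FreyUnit P :=
  Fermat.Agent.H75.frey_exists_eval_preΨ_not_dvd P

end DP

section Card

/-- a proper subspace of an `𝔽_p`-vector space with at most `p²` elements has at most `p`
elements -/
theorem card_le_of_ne_top {p : ℕ} [Fact p.Prime] {V : Type*} [AddCommGroup V]
    [Module (ZMod p) V] [Finite V] (hV : Nat.card V ≤ p ^ 2) (N : Submodule (ZMod p) V)
    (hN : N ≠ ⊤) : Nat.card N ≤ p := by
  classical
  have hp : p.Prime := Fact.out
  haveI : Fintype V := Fintype.ofFinite V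
  haveI : Fintype N := Fintype.ofFinite N
  have hVc : Nat.card V = p ^ Module.finrank (ZMod p) V := by
    rw [Nat.card_eq_fintype_card, Module.card_eq_pow_finrank (K := ZMod p) (V := V), ZMod.card]
  have hNc : Nat.card N = p ^ Module.finrank (ZMod p) N := by
    rw [Nat.card_eq_fintype_card, Module.card_eq_pow_finrank (K := ZMod p) (V := N), ZMod.card]
  have hlt : Module.finrank (ZMod p) N < Module.finrank (ZMod p) V := Submodule.finrank_lt hN
  have hV2 : Module.finrank (ZMod p) V ≤ 2 := by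
    rw [hVc] at hV
    exact (Nat.pow_le_pow_iff_right hp.one_lt).mp hV
  have hN1 : Module.finrank (ZMod p) N ≤ 1 := by omega
  rw [hNc]
  calc p ^ Module.finrank (ZMod p) N ≤ p ^ 1 := Nat.pow_le_pow_right hp.pos hN1
    _ = p := pow_one p

end Card

section Main

variable (P : FreyPackage)

/-- **WP6app**, with `Nat.card N ≤ p`. -/
theorem frey_caseC_false' (A : ValuationSubring Qb) (hA : A.LiesOverPrime P.p)
    (N : Submodule (ZMod P.p) (Submodule.torsionBy ℤ (P.freyCurve⁄Qb).Point P.p))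
    (hN : IsGaloisStable ℚ N) (hN0 : N ≠ ⊥) (hcard : Nat.card N ≤ P.p)
    (hall : ∀ (x y : Qb) (h : (P.freyCurve⁄Qb).Nonsingular x y),
      (P.p : ℤ) • (Point.some x y h : (P.freyCurve⁄Qb).Point) = 0 → x ∉ A) : False := by
  haveI : Finite (Submodule.torsionBy ℤ (P.freyCurve⁄Qb).Point P.p) :=
    (Fermat.Agent.H74.frey_torsionBy P).2.1
  exact frey_caseC_false P (frey_DPa P) (frey_DPb P) (frey_unit P) A hA N hN hN0 inferInstance
    hcard hall

/-- **WP6app**, with `N ≠ ⊤`. -/
theorem frey_caseC_false_of_ne_top (A : ValuationSubring Qb) (hA : A.LiesOverPrime P.p)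
    (N : Submodule (ZMod P.p) (Submodule.torsionBy ℤ (P.freyCurve⁄Qb).Point P.p))
    (hN : IsGaloisStable ℚ N) (hN0 : N ≠ ⊥) (hNtop : N ≠ ⊤)
    (hall : ∀ (x y : Qb) (h : (P.freyCurve⁄Qb).Nonsingular x y),
      (P.p : ℤ) • (Point.some x y h : (P.freyCurve⁄Qb).Point) = 0 → x ∉ A) : False := by
  haveI : Fact P.p.Prime := ⟨P.pp⟩
  haveI : Finite (Submodule.torsionBy ℤ (P.freyCurve⁄Qb).Point P.p) :=
    (Fermat.Agent.H74.frey_torsionBy P).2.1
  exact frey_caseC_false' P A hA N hN hN0
    (card_le_of_ne_top (Fermat.Agent.H74.frey_torsionBy P).2.2 N hNtop) hall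

/-- **WP6app**, positive form: if the representation is reducible, then at every place over `p`
some nonzero `p`-torsion point has integral `x`-coordinate. -/
theorem frey_exists_integral_torsion (A : ValuationSubring Qb) (hA : A.LiesOverPrime P.p)
    (hred : ∃ N : Submodule (ZMod P.p) (Submodule.torsionBy ℤ (P.freyCurve⁄Qb).Point P.p),
      IsGaloisStable ℚ N ∧ N ≠ ⊥ ∧ N ≠ ⊤) :
    ∃ (x y : Qb) (h : (P.freyCurve⁄Qb).Nonsingular x y),
      (P.p : ℤ) • (Point.some x y h : (P.freyCurve⁄Qb).Point) = 0 ∧ x ∈ A := by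
  by_contra hcon
  obtain ⟨N, hN, hN0, hNtop⟩ := hred
  refine frey_caseC_false_of_ne_top P A hA N hN hN0 hNtop ?_
  intro x y h htor hxA
  exact hcon ⟨x, y, h, htor, hxA⟩

/-- the same with the hypothesis `¬ GaloisRepIsIrreducible` of S13 -/
theorem frey_exists_integral_torsion_of_reducible (A : ValuationSubring Qb)
    (hA : A.LiesOverPrime P.p)
    (hred : ¬ GaloisRepIsIrreducible (K := Qb) ℚ P.freyCurve P.p) :
    ∃ (x y : Qb) (h : (P.freyCurve⁄Qb).Nonsingular x y),
      (P.p : ℤ) • (Point.some x y h : (P.freyCurve⁄Qb).Point) = 0 ∧ x ∈ A := by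
  refine frey_exists_integral_torsion P A hA ?_
  by_contra hcon
  apply hred
  refine ⟨(Fermat.Agent.H74.frey_torsionBy P).1, ?_⟩
  intro N hN
  by_contra hN'
  rw [not_or] at hN'
  exact hcon ⟨N, hN, hN'.1, hN'.2⟩

end Main

end Fermat.Agent.H9
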