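import Mathlib
import Fermat.Prelude.Def_FLTPrelim_FreyPackage
import Fermat.Prelude.Def_FLTPrelim_GaloisRep
import Fermat.Prelude.Def_FLTPrelim_Ramification
import Fermat.Agent.H92.S13WP4Pack
import Fermat.Agent.H9.S13.CaseCFinal

/-!
# S13: the local input at `p` (`hlocp`) in the shape of the final assembly

For every place `A` of `ℚ̄` over the Frey prime `p`, the subgroup `T = V ∩ E₁(A)` of
`V = E[p]` receives `(σ - 1) V` for every `σ` in the inertia group of `A`, and `T = ⊤` forces the
mod-`p` representation to be irreducible.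
-/

set_option autoImplicit false

noncomputable section

open WeierstrassCurve WeierstrassCurve.Affine WeierstrassCurve.Affine.Point

namespace Fermat.Agent.H9

local notation "Qb" => AlgebraicClosure ℚ

/-- **S13, input `hlocp`** (WP4 + WP6), exactly in the shape used by `Fermat.Agent.H25.s13_of`. -/
theorem frey_hlocp (P : FreyPackage) :
    ∀ A : ValuationSubring (AlgebraicClosure ℚ), A.LiesOverPrime P.p →
      ∃ T : AddSubgroup (Submodule.torsionBy ℤ (P.freyCurve⁄(AlgebraicClosure ℚ)).Point P.p),
        (∀ σ ∈ A.inertiaSubgroupIn ℚ,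
          ∀ x : Submodule.torsionBy ℤ (P.freyCurve⁄(AlgebraicClosure ℚ)).Point P.p,
            σ • x - x ∈ T) ∧
        (T = ⊤ → GaloisRepIsIrreducible (K := AlgebraicClosure ℚ) ℚ P.freyCurve P.p) := by
  intro A hA
  have hp2 : P.p ≠ 2 := by have := P.hp5; omega
  refine ⟨(Fermat.Agent.H92.kerRedTorsion A P.freyCurve
    (Fermat.Agent.H92.frey_isIntegralAt_of_odd P P.pp hp2 A hA) P.p).toAddSubgroup, ?_, ?_⟩
  · intro σ hσ x
    exact Fermat.Agent.H92.frey_inertia_sub_mem_kerRedTorsion P P.pp hp2 A hA hσ x
  · intro hT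
    by_contra hred
    obtain ⟨x, y, h, htor, hx⟩ := frey_exists_integral_torsion_of_reducible P A hA hred
    have htop : Fermat.Agent.H92.kerRedTorsion A P.freyCurve
        (Fermat.Agent.H92.frey_isIntegralAt_of_odd P P.pp hp2 A hA) P.p = ⊤ := by
      apply Submodule.toAddSubgroup_injective
      rw [hT]
      rfl
    exact (Fermat.Agent.H92.kerRedTorsion_eq_top_iff A P.freyCurve _ P.p).mp htop x y h htor hx

end Fermat.Agent.H9

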